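import Fermat.Agent.S56.TW.Hyp
import Fermat.Agent.S56.Loc.Ur
import Fermat.Agent.S53.ResidualDict
import Fermat.Agent.CFT.LS.Inst
import Fermat.Agent.Common.PlaceBridge

/-!
# S56 / ASM-PLACES : conjugacy of places, translated to the matrix language.
-/

set_option autoImplicit false
set_option linter.unusedSectionVars false

open ExtCitation Polynomial

namespace Fermat.Agent.S56.Places

open CFT (levS levAll decomp Z1 B1 Qb)

/-- two Frobenius elements at the same place differ by inertia -/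
theorem inv_mul_mem_inertia {A : ValuationSubring Qb} {q : ℕ} {φ φ' : GQ}
    (hφ : A.IsFrobeniusAt φ q) (hφ' : A.IsFrobeniusAt φ' q) :
    φ⁻¹ * φ' ∈ A.inertiaSubgroupIn ℚ := by
  obtain ⟨h1, h2⟩ := hφ
  obtain ⟨h1', h2'⟩ := hφ'
  refine ⟨(⟨φ, h1⟩ : A.decompositionSubgroup ℚ)⁻¹ * ⟨φ', h1'⟩, ?_, rfl⟩
  change _ ∈ MonoidHom.ker _
  rw [MonoidHom.mem_ker]
  ext x
  change ((⟨φ, h1⟩ : A.decompositionSubgroup ℚ)⁻¹ * ⟨φ', h1'⟩) • x = x
  rw [mul_smul, h2', ← h2, inv_smul_smul]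

variable {k : Type} [Field k] {p : ℕ} [Fact p.Prime]

theorem toMatRes_eq_one_iff (ρbar : ResidualGaloisRep k) (b : Module.Basis (Fin 2) k ρbar.V)
    (σ : GQ) : S53.toMatRes ρbar b σ = 1 ↔ ρbar.ρ σ = 1 := by
  constructor
  · intro h
    apply (LinearMap.toMatrixAlgEquiv b).injective
    rw [map_one]
    exact h
  · intro h
    change LinearMap.toMatrixAlgEquiv b (ρbar.ρ σ) = 1
    rw [h, map_one]

theorem unramOutside_of (ρbar : ResidualGaloisRep k) (b : Module.Basis (Fin 2) k ρbar.V)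
    (Smin : Finset ℕ) (hpSmin : p ∈ Smin)
    (hmin : ∀ q : ℕ, q.Prime → q ≠ p → (q ∈ Smin ↔ ¬ ρbar.IsUnramifiedAt q)) :
    UnramOutside (S53.toMatRes ρbar b) (toP Smin) := by
  intro q hq A hA σ hσ
  have hq' : (q : ℕ) ∉ Smin := fun h => hq (Finset.mem_subtype.mpr h)
  have hqp : (q : ℕ) ≠ p := fun h => hq' (h ▸ hpSmin)
  have hur : ρbar.IsUnramifiedAt q := by
    by_contra hcon
    exact hq' ((hmin q q.2 hqp).mpr hcon)
  exact (toMatRes_eq_one_iff ρbar b σ).mpr (hur A hA σ hσ)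

theorem ram_of (ρbar : ResidualGaloisRep k) (b : Module.Basis (Fin 2) k ρbar.V)
    (Smin : Finset ℕ)
    (hmin : ∀ q : ℕ, q.Prime → q ≠ p → (q ∈ Smin ↔ ¬ ρbar.IsUnramifiedAt q))
    (q : Nat.Primes) (hq : q ∈ toP Smin) (hqp : (q : ℕ) ≠ p) :
    ∃ σ ∈ inert q, S53.toMatRes ρbar b σ ≠ 1 := by
  have h1 := (hmin q q.2 hqp).mp (Finset.mem_subtype.mp hq)
  unfold ResidualGaloisRep.IsUnramifiedAt at h1
  push Not at h1
  obtain ⟨A, hA, σ, hσ, hne⟩ := h1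
  have hP := CFT.LS.liesOverPrime_primeLocalPlace q
  obtain ⟨τ, rfl⟩ := Bridge.exists_smul_eq q.2 hP hA
  refine ⟨τ⁻¹ * σ * τ, (Bridge.mem_inertia_smul_iff q.2 hP).mp hσ, fun h => hne ?_⟩
  rw [toMatRes_eq_one_iff, map_mul, map_mul] at h
  have h2 : ρbar.ρ τ * (ρbar.ρ τ⁻¹ * ρbar.ρ σ * ρbar.ρ τ) * ρbar.ρ τ⁻¹ = ρbar.ρ σ := by
    simp only [← map_mul]
    congr 1
    group
  rw [← h2, h, mul_one, ← map_mul, mul_inv_cancel, map_one]

theorem charpoly_frob_of (ρbar : ResidualGaloisRep k) (b : Module.Basis (Fin 2) k ρbar.V)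
    (q : Nat.Primes)
    (hur : ∀ A : ValuationSubring Qb, A.LiesOverPrime (q : ℕ) →
      ∀ σ ∈ A.inertiaSubgroupIn ℚ, S53.toMatRes ρbar b σ = 1)
    (φ₀ : GQ) (hφ₀ : (primeLocalPlace q).IsFrobeniusAt φ₀ (q : ℕ)) (f : k[X])
    (hf : (S53.toMatRes ρbar b φ₀).charpoly = f)
    (P : ValuationSubring Qb) (hP : P.LiesOverPrime (q : ℕ)) (φ : GQ)
    (hφ : P.IsFrobeniusAt φ (q : ℕ)) : LinearMap.charpoly (ρbar.ρ φ) = f := by
  have hP₀ := CFT.LS.liesOverPrime_primeLocalPlace q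
  obtain ⟨τ, rfl⟩ := Bridge.exists_smul_eq q.2 hP₀ hP
  have h1 := (Bridge.isFrobeniusAt_smul_iff q.2 hP₀).mp hφ
  have h2 := hur _ hP₀ _ (inv_mul_mem_inertia hφ₀ h1)
  set r := S53.toMatRes ρbar b with hr
  have h3 : r (τ⁻¹ * φ * τ) = r φ₀ := by
    have : r (τ⁻¹ * φ * τ) = r φ₀ * r (φ₀⁻¹ * (τ⁻¹ * φ * τ)) := by
      rw [← map_mul]; congr 1; group
    rw [this, h2, mul_one]
  have h4 : r φ = r τ * r φ₀ * r τ⁻¹ := by
    rw [← h3, ← map_mul, ← map_mul]; congr 1; group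
  rw [← LinearMap.charpoly_toMatrix (ρbar.ρ φ) b, ← hf]
  change (r φ).charpoly = _
  rw [h4]
  rw [Matrix.charpoly_mul_comm, ← mul_assoc, ← map_mul, inv_mul_cancel, map_one, one_mul]

end Fermat.Agent.S56.Places
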