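import Fermat.Agent.S56.Asm.Count
import Fermat.Agent.S56.TD.Univ
import Fermat.Agent.S56.TD.Alg
import Fermat.Agent.S56.TD.BC

/-!
# S56 / ASM-MAIN : `R^univ` is a quotient of `𝒪[[x_1..x_r]]`, for an abstract deformation condition `𝒟`.
-/

set_option autoImplicit false
set_option linter.unusedSectionVars false

open ExtCitation Polynomial IsLocalRing

namespace Fermat.Agent.S56

open CFT (levS levAll decomp Z1 B1 Qb IsSmooth)

variable {𝒪 : Type} [CommRing 𝒪] [IsDomain 𝒪] [IsDiscreteValuationRing 𝒪]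
  [IsAdicComplete (maximalIdeal 𝒪) 𝒪] [Finite (ResidueField 𝒪)]
  {p : ℕ} [Fact p.Prime] [CharP (ResidueField 𝒪) p]

/-- a deformation which is unramified at `q` has an unramified cocycle at `q` -/
theorem resLoc_coc_mem_Lur_of_unram {k : Type} [Field k] (h2 : (2 : k) ≠ 0) (rbar : GQ →* M2 k)
    (q : Nat.Primes) (ρ₁ : GaloisRepAdic (DualNumber k)) (r₁ : GQ →* M2 (DualNumber k))
    (hm : S53.HasMatrix ρ₁ r₁) (hl : IsLift rbar r₁) (hu : ρ₁.IsUnramifiedAt (q : ℕ)) :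
    resLoc k q (coc h2 r₁) ∈ Lur (adRep rbar) q := by
  have hA := liesOverPrime_primeLocalPlace q
  obtain ⟨L, hLfin, hL⟩ := (matCont_dualNumber_iff r₁).1 hm.matCont
  refine ⟨resLoc_mem_Z1loc' _ (coc_mem_Z1 h2 levAll hl ?_) q, 0, fun σ hσ => ?_⟩
  · refine ⟨(IntermediateField.normalClosure ℚ L Qb).fixingSubgroup,
      ⟨_, normalClosure.is_finiteDimensional ℚ L Qb, normalClosure.normal ℚ L Qb, rfl⟩,
      fun s hs => hL s (fun x hx => ?_)⟩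
    exact hs ⟨x, IntermediateField.le_normalClosure L hx⟩
  · have h1 : r₁ (σ : GQ) = 1 := by
      obtain ⟨b, hb⟩ := hm
      rw [← hb σ, hu _ hA σ hσ]
      exact LinearMap.toMatrix_one b
    have h3 : cocM r₁ (σ : GQ) = 0 := by
      have e : (1 : M2 (DualNumber k)).map TrivSqZeroExt.snd = 0 := by
        ext i j
        by_cases hij : i = j <;> simp [Matrix.one_apply, hij]
      rw [cocM, h1, e, zero_mul]
    rw [resLoc_apply, coc, h3, map_zero, map_zero, sub_zero]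

/-- **[ASM-MAIN]** -/
theorem surjective_of_conditions (hp2 : p ≠ 2)
    (ρbar : ResidualGaloisRep (ResidueField 𝒪))
    (b : Module.Basis (Fin 2) (ResidueField 𝒪) ρbar.V) (rbar : GQ →* M2 (ResidueField 𝒪))
    (hrbar : ∀ σ, LinearMap.toMatrix b b (ρbar.ρ σ) = rbar σ) (h : RbarHyp p rbar)
    (S₀ Q : Finset Nat.Primes) (hdisj : Disjoint S₀ Q) (hpS : pPrime p ∈ S₀)
    (hur : UnramOutside rbar S₀)
    (hQ : ∀ q ∈ Q, p ∣ (q : ℕ) - 1 ∧ ∃ φ : GQ, (primeLocalPlace q).IsFrobeniusAt φ (q : ℕ) ∧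
      ∃ α β : ResidueField 𝒪, α ≠ β ∧ (rbar φ).charpoly = (X - C α) * (X - C β))
    (hkill : ∀ b ∈ Z1 (levS (S₀ ∪ Q)) (adTw p rbar),
      (∀ q ∈ Q, resLoc (ResidueField 𝒪) q b ∈ B1loc (adTw p rbar) q) → b ∈ B1 (adTw p rbar))
    (hGW : GWStatement p rbar S₀ Q)
    (𝒟 : ∀ ⦃A : Type⦄ [CommRing A] [IsLocalRing A] [Algebra 𝒪 A], GaloisRepAdic A → Prop)
    (𝒟p : GaloisRepAdic (DualNumber (ResidueField 𝒪)) → Prop)
    (DQ : GaloisRep.DeformationRingData 𝒪 ρbar 𝒟)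
    (hbc : ∀ (φ : DQ.R →ₐ[𝒪] DualNumber (ResidueField 𝒪))
      (hφ : IsLocalHom (φ : DQ.R →+* DualNumber (ResidueField 𝒪))), Function.Surjective φ →
      𝒟 (DQ.ρ.baseChangeAlong (φ : DQ.R →+* DualNumber (ResidueField 𝒪)) hφ))
    (h𝒟 : ∀ ρ₁ : GaloisRepAdic (DualNumber (ResidueField 𝒪)), 𝒟 ρ₁ →
      ρ₁.DetIsCyclotomic p ∧ 𝒟p ρ₁ ∧ (∀ q : Nat.Primes, q ∉ S₀ ∪ Q → ρ₁.IsUnramifiedAt (q : ℕ)) ∧
        ∀ q ∈ S₀, (q : ℕ) ≠ p → ρ₁.IsUnramifiedAt (q : ℕ) ∨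
          ((∃ σ ∈ inert q, rbar σ ≠ 1) ∧ ρ₁.IsUnipotentOnInertiaAt (q : ℕ)))
    (hLp : ∃ L : Submodule (ResidueField 𝒪) (↥(decomp (pPrime p)) → sl2 (ResidueField 𝒪)),
      B1loc (adRep rbar) (pPrime p) ≤ L ∧ L ≤ Z1loc (adRep rbar) (pPrime p) ∧
      Finite ↥L ∧ Nat.card ↥L ≤ Nat.card (ResidueField 𝒪) ^ 4 ∧
      ∀ (ρ₁ : GaloisRepAdic (DualNumber (ResidueField 𝒪)))
        (r₁ : GQ →* M2 (DualNumber (ResidueField 𝒪))),
        S53.HasMatrix ρ₁ r₁ → IsLift rbar r₁ →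
        (∀ σ, (r₁ σ).det = TrivSqZeroExt.inl (rbar σ).det) → 𝒟p ρ₁ →
        resLoc (ResidueField 𝒪) (pPrime p)
          (coc (two_ne_zero_of_charP (k := ResidueField 𝒪) p hp2) r₁) ∈ L) :
    ∃ γ : MvPowerSeries (Fin Q.card) 𝒪 →ₐ[𝒪] DQ.R, Function.Surjective γ := by
  classical
  have h2 : (2 : ResidueField 𝒪) ≠ 0 := two_ne_zero_of_charP p hp2
  obtain ⟨Lp, hLpB, hLpZ, -, hLpcard, hLpmem⟩ := hLp
  obtain ⟨hfin, hcard⟩ := card_Sel_le hp2 h S₀ Q hdisj hpS hur hQ hkill hGW Lp hLpB hLpZ hLpcard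
  have hur' : UnramOutside rbar (S₀ ∪ Q) := hur.mono Finset.subset_union_left
  have hsm : IsSmooth (levS (S₀ ∪ Q)) (adRep rbar) := adRep_smooth h.cont _ hur'
  have hsmA : IsSmooth levAll (adRep rbar) := isSmooth_levAll_of_levS hsm
  -- coboundaries are Selmer cocycles
  have hB : B1 (adRep rbar) ≤ Sel (S₀ ∪ Q) S₀ (adRep rbar) (locFam rbar Lp) := by
    intro c hc
    rw [mem_Sel]
    refine ⟨?_, fun v _ => ?_⟩
    · obtain ⟨w, rfl⟩ := hc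
      refine ⟨?_, ?_⟩
      · show CFT.d12 (adRep rbar) (CFT.d01 (adRep rbar) w) = 0
        funext g
        simp [CFT.d12_apply, CFT.d01_apply, map_sub]
      · obtain ⟨U, hU, hs⟩ := hsm w
        refine ⟨U, hU, fun g s hsU => ?_⟩
        simp only [CFT.d01_apply, map_mul, Module.End.mul_apply, hs s hsU]
    · have hloc := resLoc_mem_B1loc (adRep rbar) hc v
      by_cases hv : v = pPrime p
      · subst hv; rw [locFam_p]; exact hLpB hloc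
      · rw [locFam_ne rbar Lp hv]; exact B1loc_le_Lur _ hsmA v hloc
  have hX : ∀ (ρ₁ : GaloisRepAdic (DualNumber (ResidueField 𝒪)))
      (r₁ : GQ →* M2 (DualNumber (ResidueField 𝒪))), 𝒟 ρ₁ → S53.HasMatrix ρ₁ r₁ → IsLift rbar r₁ →
        coc h2 r₁ ∈ Sel (S₀ ∪ Q) S₀ (adRep rbar) (locFam rbar Lp) ∧
          ∀ σ, (r₁ σ).det = TrivSqZeroExt.inl (rbar σ).det := by
    intro ρ₁ r₁ hD hm hl
    obtain ⟨hdet, hp', hunr, hunip⟩ := h𝒟 ρ₁ hD
    have hdet' := det_const_of_detIsCyclotomic h.det ρ₁ r₁ hm hdet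
    refine ⟨?_, hdet'⟩
    rw [mem_Sel]
    refine ⟨coc_mem_Z1 h2 _ hl (exists_level_of_isUnramifiedAt ρ₁ r₁ hm _ hunr), fun v hv => ?_⟩
    by_cases hvp : v = pPrime p
    · subst hvp; rw [locFam_p]; exact hLpmem ρ₁ r₁ hm hl hdet' hp'
    · rw [locFam_ne rbar Lp hvp]
      have hvp' : (v : ℕ) ≠ p := fun e => hvp (Subtype.ext e)
      rcases hunip v hv hvp' with hu | ⟨hram, hu⟩
      · exact resLoc_coc_mem_Lur_of_unram h2 rbar v ρ₁ r₁ hm hl hu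
      · exact resLoc_coc_mem_Lur h2 rbar v hvp' hram ρ₁ r₁ hm hl hu
  have hmain := card_algHom_mul_le h2 ρbar b rbar hrbar 𝒟 DQ hbc _ hfin hB
    (adRep_invariants hp2 h) hX
  rw [card_sl2] at hmain
  refine exists_surjective_of_card_le DQ.R DQ.residue_surjective Q.card ?_
  have hK : 0 < Nat.card (ResidueField 𝒪) := Nat.card_pos
  have := hmain.trans hcard
  rw [pow_add] at this
  exact Nat.le_of_mul_le_mul_right this (pow_pos hK 3)

end Fermat.Agent.S56
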