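import Fermat.Agent.S56.Asm.Hyp
import Fermat.Agent.S56.GW2
import Fermat.Agent.S56.Loc.Min

/-!
# S56 / ASM-COUNT : `#S̃el ≤ #k^(#Q + 3)` from [GW'] and the local bounds.
-/

set_option autoImplicit false

open ExtCitation Polynomial IsLocalRing

namespace Fermat.Agent.S56

open CFT (levS levAll decomp Z1 B1 Qb IsSmooth)

variable {k : Type} [Field k] [Finite k] {p : ℕ} [Fact p.Prime] [CharP k p]

/-- the family of local conditions: `Lp` at `p`, `Lur` elsewhere -/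
noncomputable def locFam (rbar : GQ →* M2 k) (Lp : Submodule k (↥(decomp (pPrime p)) → sl2 k))
    (v : Nat.Primes) : Submodule k (↥(decomp v) → sl2 k) :=
  if h : v = pPrime p then h ▸ Lp else Lur (adRep rbar) v

lemma locFam_p (rbar : GQ →* M2 k) (Lp : Submodule k (↥(decomp (pPrime p)) → sl2 k)) :
    locFam rbar Lp (pPrime p) = Lp := by
  simp [locFam]

lemma locFam_ne (rbar : GQ →* M2 k) (Lp : Submodule k (↥(decomp (pPrime p)) → sl2 k))
    {v : Nat.Primes} (hv : v ≠ pPrime p) : locFam rbar Lp v = Lur (adRep rbar) v := by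
  simp [locFam, hv]

theorem UnramOutside.mono {rbar : GQ →* M2 k} {T T' : Finset Nat.Primes} (h : UnramOutside rbar T)
    (hT : T ⊆ T') : UnramOutside rbar T' :=
  fun q hq A hA σ hσ => h q (fun hq' => hq (hT hq')) A hA σ hσ

theorem isSmooth_levAll_of_levS {W : Type} [AddCommGroup W] [Module k W] {ρ : Representation k GQ W}
    {T : Finset Nat.Primes} (h : IsSmooth (levS T) ρ) : IsSmooth levAll ρ := fun v => by
  obtain ⟨U, hU, hs⟩ := h v
  exact ⟨U, CFT.levS_le_levAll T hU, hs⟩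

/-- the arithmetic -/
theorem count_aux (K X s t : ℕ) (hK : 0 < K) (hs : 1 ≤ s)
    (h : X * (K ^ 3) ^ (s + t) * K ≤ (K ^ 4 * (K ^ 3) ^ (s - 1)) * (K ^ 4) ^ t * K ^ 3) :
    X ≤ K ^ (t + 3) := by
  obtain ⟨s', rfl⟩ : ∃ s', s = s' + 1 := ⟨s - 1, by omega⟩
  have e1 : X * (K ^ 3) ^ (s' + 1 + t) * K = X * K ^ (3 * s' + 3 * t + 4) := by
    rw [← pow_mul, mul_assoc, ← pow_succ]; congr 2; ring
  have e2 : (K ^ 4 * (K ^ 3) ^ (s' + 1 - 1)) * (K ^ 4) ^ t * K ^ 3 =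
      K ^ (t + 3) * K ^ (3 * s' + 3 * t + 4) := by
    rw [Nat.add_sub_cancel, ← pow_mul, ← pow_mul, ← pow_add, ← pow_add, ← pow_add, ← pow_add]
    congr 1; ring
  rw [e1, e2] at h
  exact Nat.le_of_mul_le_mul_right h (pow_pos hK _)

/-- **[ASM-COUNT]** -/
theorem card_Sel_le (hp2 : p ≠ 2) {rbar : GQ →* M2 k} (h : RbarHyp p rbar)
    (S₀ Q : Finset Nat.Primes) (hdisj : Disjoint S₀ Q) (hpS : pPrime p ∈ S₀)
    (hur : UnramOutside rbar S₀)
    (hQ : ∀ q ∈ Q, p ∣ (q : ℕ) - 1 ∧ ∃ φ : GQ, (primeLocalPlace q).IsFrobeniusAt φ (q : ℕ) ∧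
      ∃ α β : k, α ≠ β ∧ (rbar φ).charpoly = (X - C α) * (X - C β))
    (hkill : ∀ b ∈ Z1 (levS (S₀ ∪ Q)) (adTw p rbar),
      (∀ q ∈ Q, resLoc k q b ∈ B1loc (adTw p rbar) q) → b ∈ B1 (adTw p rbar))
    (hGW : GWStatement p rbar S₀ Q)
    (Lp : Submodule k (↥(decomp (pPrime p)) → sl2 k))
    (hLpB : B1loc (adRep rbar) (pPrime p) ≤ Lp) (hLpZ : Lp ≤ Z1loc (adRep rbar) (pPrime p))
    (hLpcard : Nat.card ↥Lp ≤ Nat.card k ^ 4) :
    Finite ↥(Sel (S₀ ∪ Q) S₀ (adRep rbar) (locFam rbar Lp)) ∧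
      Nat.card ↥(Sel (S₀ ∪ Q) S₀ (adRep rbar) (locFam rbar Lp)) ≤ Nat.card k ^ (Q.card + 3) := by
  classical
  have h2 : (2 : k) ≠ 0 := two_ne_zero_of_charP p hp2
  have hur' : UnramOutside rbar (S₀ ∪ Q) := hur.mono Finset.subset_union_left
  have hsm : IsSmooth (levS (S₀ ∪ Q)) (adRep rbar) := adRep_smooth h.cont _ hur'
  have hsm' : IsSmooth (levS (S₀ ∪ Q)) (adTw p rbar) :=
    adTw_smooth h.cont _ (Finset.mem_union_left _ hpS) hur'
  have hsmA : IsSmooth levAll (adRep rbar) := isSmooth_levAll_of_levS hsm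
  have hfinW : Finite ↥(sl2 k) := Module.finite_of_finite k
  obtain ⟨c, hc, hχ, hfin, hle⟩ := hGW (locFam rbar Lp)
    (fun v _ => by
      by_cases hv : v = pPrime p
      · subst hv; rw [locFam_p]; exact hLpB
      · rw [locFam_ne rbar Lp hv]; exact B1loc_le_Lur _ hsmA v)
    (fun v _ => by
      by_cases hv : v = pPrime p
      · subst hv; rw [locFam_p]; exact hLpZ
      · rw [locFam_ne rbar Lp hv]; exact Lur_le_Z1loc _ v)
    hkill
  refine ⟨hfin, ?_⟩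
  have hK : 0 < Nat.card k := Nat.card_pos
  rw [card_sl2, card_fixed_conj hp2 h.det c hc hχ] at hle
  have hS : ∏ v ∈ S₀, Nat.card ↥(locFam rbar Lp v) ≤
      Nat.card k ^ 4 * (Nat.card k ^ 3) ^ (S₀.card - 1) := by
    rw [← Finset.mul_prod_erase S₀ _ hpS, locFam_p, ← Finset.card_erase_of_mem hpS]
    refine Nat.mul_le_mul hLpcard (Finset.prod_le_pow_card _ _ _ fun v hv => ?_)
    rw [locFam_ne rbar Lp (Finset.ne_of_mem_erase hv), ← card_sl2]
    exact (card_Lur_le (adRep rbar) v).2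
  have hQc : ∏ q ∈ Q, Nat.card ↥(Z1loc (adRep rbar) q) ≤ (Nat.card k ^ 4) ^ Q.card := by
    refine Finset.prod_le_pow_card _ _ _ fun q hq => ?_
    obtain ⟨hq1, φ, hφ, α, β, hαβ, hchar⟩ := hQ q hq
    have hqS : q ∉ S₀ := fun hq' => (Finset.disjoint_left.1 hdisj hq') hq
    have hqp : (q : ℕ) ≠ p := fun e => hqS (by
      have : q = pPrime p := Subtype.ext e
      rw [this]; exact hpS)
    exact (card_Z1loc_le rbar h.cont q hqp hq1
      (hur q hqS _ (liesOverPrime_primeLocalPlace q)) φ hφ α β hαβ hchar).2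
  refine count_aux (Nat.card k) _ S₀.card Q.card hK (Finset.card_pos.2 ⟨_, hpS⟩) (hle.trans ?_)
  exact Nat.mul_le_mul_right _ (Nat.mul_le_mul hS hQc)

end Fermat.Agent.S56
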