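import Fermat.Agent.S56.TW.Hyp
import Fermat.Agent.S56.TD.Dual
import Fermat.Agent.S14.PartA.Cyclo

/-!
# S56 / ASM-DEF : determinant and level of a deformation to `k[ε]`   (owner helper6)
-/

set_option autoImplicit false

open ExtCitation Polynomial IsLocalRing

namespace Fermat.Agent.S56

open CFT (levS levAll decomp Z1 B1 Qb)

namespace AsmDef

variable {k : Type} [Field k] {p : ℕ} [Fact p.Prime] [CharP k p]

theorem chiK_eq_cycloExp (σ : GQ) : (chiK p k σ : k) = (cycloExp p σ : k) := by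
  show (ZMod.castHom (dvd_refl p) k : ZMod p →+* k) ((cycloChar p σ : (ZMod p)ˣ) : ZMod p) = _
  rw [coe_cycloChar, map_natCast]

theorem natCast_dualNumber_eq_zero : ((p : ℕ) : DualNumber k) = 0 := by
  have h : ((p : ℕ) : DualNumber k) = TrivSqZeroExt.inl ((p : ℕ) : k) :=
    (map_natCast (TrivSqZeroExt.inlHom k k) p).symm
  rw [h, CharP.cast_eq_zero, TrivSqZeroExt.inl_zero]

theorem det_const {rbar : GQ →* M2 k} (hdet : ∀ σ, (rbar σ).det = (chiK p k σ : k))
    (ρ₁ : GaloisRepAdic (DualNumber k)) (r₁ : GQ →* M2 (DualNumber k)) (hm : S53.HasMatrix ρ₁ r₁)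
    (h : ρ₁.DetIsCyclotomic p) (σ : GQ) : (r₁ σ).det = TrivSqZeroExt.inl (rbar σ).det := by
  obtain ⟨b, hb⟩ := hm
  have h1 := h.2 1 σ (cycloExp p σ) (fun μ hμ => by
    rw [pow_one] at hμ
    rw [S14.PartA.cycloChar_spec hμ σ, val_cycloChar])
  rw [pow_one, natCast_dualNumber_eq_zero, Ideal.span_singleton_eq_bot.2 rfl, Ideal.mem_bot,
    sub_eq_zero] at h1
  rw [← hb σ, LinearMap.det_toMatrix, h1, hdet, chiK_eq_cycloExp]
  exact (map_natCast (TrivSqZeroExt.inlHom k k) _).symm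

theorem exists_level (ρ₁ : GaloisRepAdic (DualNumber k))
    (r₁ : GQ →* M2 (DualNumber k)) (hm : S53.HasMatrix ρ₁ r₁) (T : Finset Nat.Primes)
    (hur : ∀ q : Nat.Primes, q ∉ T → ρ₁.IsUnramifiedAt (q : ℕ)) :
    ∃ U ∈ (levS T).carrier, ∀ s ∈ U, r₁ s = 1 := by
  refine exists_level_of_unram r₁ ((matCont_dualNumber_iff r₁).1 hm.matCont) T ?_
  intro q hq A hA σ hσ
  obtain ⟨b, hb⟩ := hm
  rw [← hb σ, hur q hq A hA σ hσ]
  exact LinearMap.toMatrix_one b

end AsmDef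

end Fermat.Agent.S56
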