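import Fermat.Agent.S56.TW.Hyp
import Fermat.Agent.S53.ResidualDict

/-!
# S56 / ASM-HYP : proofs of `rbarHyp_of`, `charP_residueField`, `two_ne_zero_of_charP`, `card_toP` (wired in `Asm/Hyp.lean`).
-/

set_option autoImplicit false

open ExtCitation Polynomial IsLocalRing
open scoped TensorProduct

namespace Fermat.Agent.S56

namespace AsmHyp

open CFT (levS levAll decomp Z1 B1 Qb)

theorem charP_residueField {𝒪 : Type} [CommRing 𝒪] [IsLocalRing 𝒪] (p : ℕ) [Fact p.Prime]
    (hp𝒪 : (p : 𝒪) ∈ maximalIdeal 𝒪) : CharP (ResidueField 𝒪) p := by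
  have h0 : ((p : ℕ) : ResidueField 𝒪) = 0 := by
    rw [← map_natCast (residue 𝒪), residue_eq_zero_iff]
    exact hp𝒪
  have hdvd : ringChar (ResidueField 𝒪) ∣ p := (ringChar.spec _ p).1 h0
  rcases (Nat.dvd_prime Fact.out).1 hdvd with h1 | h1
  · exact absurd h1 CharP.ringChar_ne_one
  · exact ringChar.of_eq h1

theorem two_ne_zero_of_charP {k : Type} [Field k] (p : ℕ) [Fact p.Prime] [CharP k p] (hp2 : p ≠ 2) :
    (2 : k) ≠ 0 := by
  intro h
  have h' : ((2 : ℕ) : k) = 0 := by exact_mod_cast h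
  rw [CharP.cast_eq_zero_iff k p 2] at h'
  exact hp2 ((Nat.prime_dvd_prime_iff_eq Fact.out Nat.prime_two).mp h')

theorem card_toP {T : Finset ℕ} (hT : ∀ q ∈ T, q.Prime) : (toP T).card = T.card := by
  have h1 : (toP T).card = (T.filter Nat.Prime).card := Finset.card_subtype Nat.Prime T
  rw [h1, Finset.filter_true_of_mem hT]

variable {k : Type} [Field k]

/-- no stable line, from the irreducibility of the base change -/
theorem absIrr_aux (ρbar : ResidualGaloisRep k) (b : Module.Basis (Fin 2) k ρbar.V)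
    (K : Type) [Field K] [Algebra k K] (H : Subgroup GQ)
    (hirr : ∀ V : Submodule K (ρbar.baseChange K).V,
        (∀ σ ∈ H, ∀ x ∈ V, (ρbar.baseChange K).ρ σ x ∈ V) → V = ⊥ ∨ V = ⊤)
    (v : Fin 2 → K) (hv : v ≠ 0) :
    ∃ σ ∈ H, ∀ c : K, ((S53.toMatRes ρbar b σ).map (algebraMap k K)).mulVec v ≠ c • v := by
  by_contra hcon
  push Not at hcon
  let bK : Module.Basis (Fin 2) K (K ⊗[k] ρbar.V) := Algebra.TensorProduct.basis K b
  let x : K ⊗[k] ρbar.V := bK.equivFun.symm v
  have hx : bK.repr x = Finsupp.equivFunOnFinite.symm v := by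
    apply Finsupp.ext
    intro i
    have : bK.equivFun x = v := bK.equivFun.apply_symm_apply v
    exact congrFun this i
  have hxv : ∀ i, bK.repr x i = v i := fun i => by rw [hx]; rfl
  have hx0 : x ≠ 0 := by
    intro h0
    apply hv
    funext i
    rw [← hxv i, h0, map_zero]
    rfl
  have hstab : ∀ σ ∈ H, ∃ c : K, (ρbar.ρ σ).baseChange K x = c • x := by
    intro σ hσ
    obtain ⟨c, hc⟩ := hcon σ hσ
    refine ⟨c, ?_⟩
    apply bK.repr.injective
    apply Finsupp.ext
    intro i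
    have h1 := LinearMap.toMatrix_mulVec_repr bK bK ((ρbar.ρ σ).baseChange K) x
    have h2 : LinearMap.toMatrix bK bK ((ρbar.ρ σ).baseChange K) =
        (S53.toMatRes ρbar b σ).map (algebraMap k K) :=
      LinearMap.toMatrix_baseChange K (ρbar.ρ σ) b b
    rw [h2] at h1
    have h3 : (⇑(bK.repr x) : Fin 2 → K) = v := funext hxv
    rw [h3, hc] at h1
    have h4 := congrFun h1 i
    rw [← h4, map_smul, Finsupp.smul_apply, hxv]
    rfl
  rcases hirr (K ∙ x) (by
    intro σ hσ y hy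
    obtain ⟨a, rfl⟩ := Submodule.mem_span_singleton.1 hy
    obtain ⟨c, hc⟩ := hstab σ hσ
    show (ρbar.ρ σ).baseChange K (a • x) ∈ K ∙ x
    rw [map_smul, hc]
    exact Submodule.smul_mem _ _ (Submodule.smul_mem _ _ (Submodule.mem_span_singleton_self x))) with h | h
  · exact hx0 ((Submodule.span_singleton_eq_bot).1 h)
  · have h1 : Module.finrank K ↥(K ∙ x) = 1 := finrank_span_singleton hx0
    rw [h, finrank_top] at h1
    have h2 : Module.finrank K (K ⊗[k] ρbar.V) = 2 := (ρbar.baseChange K).finrank_eq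
    omega

variable {p : ℕ} [Fact p.Prime] [CharP k p]

/-- **[ASM-HYP]** -/
theorem rbarHyp_of (ρbar : ResidualGaloisRep k) (b : Module.Basis (Fin 2) k ρbar.V)
    (habs : ρbar.IsAbsolutelyIrreducible)
    (hdet : (GaloisRepAdic.ofResidualGaloisRep ρbar).DetIsCyclotomic p)
    (hsplit : ∀ σ : GQ, ∃ α β : k, LinearMap.charpoly (ρbar.ρ σ) = (X - C α) * (X - C β))
    (hTW : ∀ (K : Type) [Field K] [Algebra k K] (G : Subgroup GQ), G.index = 2 →
      ∀ V : Submodule K (ρbar.baseChange K).V,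
        (∀ σ ∈ G, ∀ x ∈ V, (ρbar.baseChange K).ρ σ x ∈ V) → V = ⊥ ∨ V = ⊤) :
    RbarHyp p (S53.toMatRes ρbar b) := by
  refine ⟨?_, fun σ => ?_, fun σ => ?_, ?_, fun H hH => ?_⟩
  · obtain ⟨L, hL, h⟩ := ρbar.factorsThroughFiniteLevel
    refine ⟨L, hL, fun σ hσ => ?_⟩
    rw [S53.toMatRes_apply, h σ hσ]
    exact LinearMap.toMatrix_one b
  · rw [S53.toMatRes_apply, LinearMap.det_toMatrix]
    have h1 := hdet.2 1 σ (cycloExp p σ) (fun μ hμ => by
      rw [pow_one] at hμ
      have := GAL.cycloChar_spec p σ hμ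
      rw [← CFT.cycloChar_eq_gal, val_cycloChar] at this
      exact this)
    have h2 : ((p ^ 1 : ℕ) : k) = 0 := by rw [pow_one]; exact CharP.cast_eq_zero k p
    rw [h2, Ideal.mem_span_singleton, zero_dvd_iff, sub_eq_zero] at h1
    have h3 : LinearMap.det (ρbar.ρ σ) = (cycloExp p σ : k) := h1
    rw [h3, chiK, MonoidHom.comp_apply, Units.coe_map, coe_cycloChar]
    simp
  · obtain ⟨α, β, h⟩ := hsplit σ
    exact ⟨α, β, by rw [S53.toMatRes_apply, LinearMap.charpoly_toMatrix, h]⟩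
  · exact fun v hv => absIrr_aux ρbar b (AlgebraicClosure k) ⊤
      (fun V hV => habs V fun σ x hx => hV σ (Subgroup.mem_top σ) x hx) v hv
  · exact fun v hv => absIrr_aux ρbar b (AlgebraicClosure k) H (hTW (AlgebraicClosure k) H hH) v hv

end AsmHyp

end Fermat.Agent.S56
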