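import Fermat.Agent.S56.TW.Hyp
import Fermat.Agent.S56.Asm.Def
import Fermat.Agent.S56.Loc.Ur
import Fermat.Agent.S56.TD.Dual
import Fermat.Agent.S53.ResidualDict
import Fermat.Agent.S56.Asm.Places
import Fermat.Agent.S56.Asm.RbarHyp

/-!
# S56 / ASM-HYP : from the hypotheses of the frozen statement to the matrix language.

`k = ResidueField 𝒪`, `b` a basis of `ρbar.V`, `rbar = S53.toMatRes ρbar b` (`rbar σ = LinearMap.toMatrix b b (ρbar.ρ σ)`).
All lemmas are translations (`LinearMap.toMatrix`, `charpoly_toMatrix`, `det_toMatrix`, base change to `k̄`: `Algebra.TensorProduct.basis`).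
* `det`: `DetIsCyclotomic` with `n = 1`, `a = cycloExp p σ` (`ExtCitation.coe_cycloChar`, `GAL.cycloChar_spec`), `Ideal.span {p} = ⊥` in `k`.
* `irr`, `irr2`: a stable line `K v` of `K²` gives a stable submodule `≠ ⊥, ⊤` of `(ρbar.baseChange K).V`, `K = AlgebraicClosure k` (`habs` for `H = ⊤`; `hTW K H` for index 2).
* all places over `q` are conjugate (`Bridge.exists_smul_eq`, `Bridge.mem_inertia_smul_iff`, `Bridge.isFrobeniusAt_smul_iff`).
-/

set_option autoImplicit false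

open ExtCitation Polynomial IsLocalRing

namespace Fermat.Agent.S56

open CFT (levS levAll decomp Z1 B1 Qb)

section

variable {𝒪 : Type} [CommRing 𝒪] [IsLocalRing 𝒪]

theorem charP_residueField (p : ℕ) [Fact p.Prime] (hp𝒪 : (p : 𝒪) ∈ maximalIdeal 𝒪) :
    CharP (ResidueField 𝒪) p :=
  AsmHyp.charP_residueField p hp𝒪

end

theorem two_ne_zero_of_charP {k : Type} [Field k] (p : ℕ) [Fact p.Prime] [CharP k p] (hp2 : p ≠ 2) :
    (2 : k) ≠ 0 :=
  AsmHyp.two_ne_zero_of_charP p hp2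

variable {k : Type} [Field k] {p : ℕ} [Fact p.Prime] [CharP k p]

/-- **[ASM-HYP]** -/
theorem rbarHyp_of (ρbar : ResidualGaloisRep k) (b : Module.Basis (Fin 2) k ρbar.V)
    (habs : ρbar.IsAbsolutelyIrreducible)
    (hdet : (GaloisRepAdic.ofResidualGaloisRep ρbar).DetIsCyclotomic p)
    (hsplit : ∀ σ : GQ, ∃ α β : k, LinearMap.charpoly (ρbar.ρ σ) = (X - C α) * (X - C β))
    (hTW : ∀ (K : Type) [Field K] [Algebra k K] (G : Subgroup GQ), G.index = 2 →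
      ∀ V : Submodule K (ρbar.baseChange K).V,
        (∀ σ ∈ G, ∀ x ∈ V, (ρbar.baseChange K).ρ σ x ∈ V) → V = ⊥ ∨ V = ⊤) :
    RbarHyp p (S53.toMatRes ρbar b) :=
  AsmHyp.rbarHyp_of ρbar b habs hdet hsplit hTW

theorem mem_toP {T : Finset ℕ} {q : Nat.Primes} : q ∈ toP T ↔ (q : ℕ) ∈ T := by
  exact Finset.mem_subtype

theorem card_toP {T : Finset ℕ} (hT : ∀ q ∈ T, q.Prime) : (toP T).card = T.card :=
  AsmHyp.card_toP hT

/-- **[ASM-UNR]** -/
theorem unramOutside_of (ρbar : ResidualGaloisRep k) (b : Module.Basis (Fin 2) k ρbar.V)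
    (Smin : Finset ℕ) (hpSmin : p ∈ Smin)
    (hmin : ∀ q : ℕ, q.Prime → q ≠ p → (q ∈ Smin ↔ ¬ ρbar.IsUnramifiedAt q)) :
    UnramOutside (S53.toMatRes ρbar b) (toP Smin) :=
  Places.unramOutside_of ρbar b Smin hpSmin hmin

/-- **[ASM-RAM]** ramified at some place over `q` ⟹ ramified at the distinguished place -/
theorem ram_of (ρbar : ResidualGaloisRep k) (b : Module.Basis (Fin 2) k ρbar.V)
    (Smin : Finset ℕ)
    (hmin : ∀ q : ℕ, q.Prime → q ≠ p → (q ∈ Smin ↔ ¬ ρbar.IsUnramifiedAt q))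
    (q : Nat.Primes) (hq : q ∈ toP Smin) (hqp : (q : ℕ) ≠ p) :
    ∃ σ ∈ inert q, S53.toMatRes ρbar b σ ≠ 1 :=
  Places.ram_of ρbar b Smin hmin q hq hqp

/-- **[ASM-FROB]** the characteristic polynomial of Frobenius does not depend on the place / the Frobenius element -/
theorem charpoly_frob_of (ρbar : ResidualGaloisRep k) (b : Module.Basis (Fin 2) k ρbar.V)
    (q : Nat.Primes)
    (hur : ∀ A : ValuationSubring Qb, A.LiesOverPrime (q : ℕ) →
      ∀ σ ∈ A.inertiaSubgroupIn ℚ, S53.toMatRes ρbar b σ = 1)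
    (φ₀ : GQ) (hφ₀ : (primeLocalPlace q).IsFrobeniusAt φ₀ (q : ℕ)) (f : k[X])
    (hf : (S53.toMatRes ρbar b φ₀).charpoly = f)
    (P : ValuationSubring Qb) (hP : P.LiesOverPrime (q : ℕ)) (φ : GQ)
    (hφ : P.IsFrobeniusAt φ (q : ℕ)) : LinearMap.charpoly (ρbar.ρ φ) = f :=
  Places.charpoly_frob_of ρbar b q hur φ₀ hφ₀ f hf P hP φ hφ

/-- **[ASM-DET]** -/
theorem det_const_of_detIsCyclotomic {rbar : GQ →* M2 k} (hdet : ∀ σ, (rbar σ).det = (chiK p k σ : k))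
    (ρ₁ : GaloisRepAdic (DualNumber k)) (r₁ : GQ →* M2 (DualNumber k)) (hm : S53.HasMatrix ρ₁ r₁)
    (h : ρ₁.DetIsCyclotomic p) (σ : GQ) : (r₁ σ).det = TrivSqZeroExt.inl (rbar σ).det :=
  AsmDef.det_const hdet ρ₁ r₁ hm h σ

/-- **[ASM-LEV]** -/
theorem exists_level_of_isUnramifiedAt (ρ₁ : GaloisRepAdic (DualNumber k))
    (r₁ : GQ →* M2 (DualNumber k)) (hm : S53.HasMatrix ρ₁ r₁) (T : Finset Nat.Primes)
    (hur : ∀ q : Nat.Primes, q ∉ T → ρ₁.IsUnramifiedAt (q : ℕ)) :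
    ∃ U ∈ (levS T).carrier, ∀ s ∈ U, r₁ s = 1 :=
  AsmDef.exists_level ρ₁ r₁ hm T hur

end Fermat.Agent.S56
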